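import Fermat.Agent.ZagierLine.Ineq

/-!
# Zagier's bound in a number field

The product formula for `x`, `1 - x` and `x ^ 2 - x + 1`.
-/

set_option autoImplicit false

noncomputable section

namespace FA.ZagierLine

open NumberField Real goldenRatio
open TotallyRealHeight (wA wB wA_add_wB wA_nonneg wB_pos)

variable {K : Type*} [Field K] [NumberField K]

/-- **Zagier's bound in a number field.** -/
theorem height_add_ge {x : K} (hx : x ≠ 0) (hx1 : 1 - x ≠ 0) (hP : x ^ 2 - x + 1 ≠ 0) :
    (Module.finrank ℚ K : ℝ) * (log φ / 2) ≤ Height.logHeight₁ x + Height.logHeight₁ (1 - x) := by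
  classical
  set y := 1 - x
  set δ := x ^ 2 - x + 1
  obtain ⟨T, hT⟩ : ∃ T : Finset (FinitePlace K), ∀ z ∈ ({x, y, δ} : Set K),
      (Function.mulSupport fun v : FinitePlace K => v z) ⊆ T := by
    refine ⟨((FinitePlace.hasFiniteMulSupport hx).union ((FinitePlace.hasFiniteMulSupport hx1).union
      (FinitePlace.hasFiniteMulSupport hP))).toFinset, fun z hz v hv => ?_⟩
    rw [Set.Finite.coe_toFinset]
    rcases hz with rfl | rfl | rfl
    exacts [Or.inl hv, Or.inr (Or.inl hv), Or.inr (Or.inr hv)]
  have hlog : ∀ z : K, z ≠ 0 → z ∈ ({x, y, δ} : Set K) →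
      ∑ w : InfinitePlace K, (w.mult : ℝ) * log (w z) + ∑ v ∈ T, log (v z) = 0 := by
    intro z hz hmem
    have h := congrArg Real.log (prod_abs_eq_one hz)
    rw [finprod_eq_prod_of_mulSupport_subset _ (hT z hmem), Real.log_one, Real.log_mul
      (Finset.prod_ne_zero_iff.2 fun w _ => pow_ne_zero _ (InfinitePlace.pos_iff.2 hz).ne')
      (Finset.prod_ne_zero_iff.2 fun v _ => (FinitePlace.pos_iff.2 hz).ne'),
      Real.log_prod fun w _ => pow_ne_zero _ (InfinitePlace.pos_iff.2 hz).ne',
      Real.log_prod fun v _ => (FinitePlace.pos_iff.2 hz).ne'] at h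
    simpa only [Real.log_pow] using h
  have hh : ∀ z : K, z ∈ ({x, y, δ} : Set K) → Height.logHeight₁ z =
      ∑ w : InfinitePlace K, (w.mult : ℝ) * log⁺ (w z) + ∑ v ∈ T, log⁺ (v z) := by
    intro z hmem
    rw [logHeight₁_eq, finsum_eq_sum_of_support_subset]
    intro v hv
    refine hT z hmem fun h1 => hv ?_
    simp only [h1, Real.posLog_one]
  have hinf : ∀ w : InfinitePlace K,
      wA * log (w x) + wA * log (w y) + wB * log (w δ) + log φ / 2 ≤ log⁺ (w x) + log⁺ (w y) := by
    intro w
    have hne : ∀ z : K, z ≠ 0 → w.embedding z ≠ 0 := fun z hz => (map_ne_zero _).2 hz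
    have e1 : w.embedding y = 1 - w.embedding x := by rw [map_sub, map_one]
    have e2 : w.embedding δ = w.embedding x ^ 2 - w.embedding x + 1 := by
      rw [map_add, map_sub, map_pow, map_one]
    have h := logQuot_le (hne x hx) (e1 ▸ hne y hx1) (e2 ▸ hne δ hP)
    rw [logQuot, ← e1, ← e2, InfinitePlace.norm_embedding_eq, InfinitePlace.norm_embedding_eq,
      InfinitePlace.norm_embedding_eq] at h
    linarith
  have hnon : ∀ v : FinitePlace K,
      wA * log (v x) + wA * log (v y) + wB * log (v δ) ≤ log⁺ (v x) + log⁺ (v y) := by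
    intro v
    have h1 : log (v x) ≤ log⁺ (v x) := le_max_right _ _
    have h2 : log (v y) ≤ log⁺ (v y) := le_max_right _ _
    have n1 := Real.posLog_nonneg (x := v x)
    have n2 := Real.posLog_nonneg (x := v y)
    have h3 : log (v δ) ≤ log⁺ (v x) + log⁺ (v y) := by
      have hle := FinitePlace.add_le v 1 (-(x * y))
      rw [show 1 + -(x * y) = δ by simp only [y, δ]; ring, map_one, FinitePlace.coe_apply v (-_),
        AbsoluteValue.map_neg, ← FinitePlace.coe_apply, map_mul] at hle
      rcases le_max_iff.1 hle with h | h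
      · exact (Real.log_nonpos (apply_nonneg v _) h).trans (add_nonneg n1 n2)
      · refine (Real.log_le_log (FinitePlace.pos_iff.2 hP) h).trans ?_
        rw [Real.log_mul (FinitePlace.pos_iff.2 hx).ne' (FinitePlace.pos_iff.2 hx1).ne']
        exact add_le_add h1 h2
    have k1 := mul_le_mul_of_nonneg_left h1 wA_nonneg
    have k2 := mul_le_mul_of_nonneg_left h2 wA_nonneg
    have k3 := mul_le_mul_of_nonneg_left h3 wB_pos.le
    calc wA * log (v x) + wA * log (v y) + wB * log (v δ)
        ≤ (wA + wB) * (log⁺ (v x) + log⁺ (v y)) := by linarith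
      _ ≤ log⁺ (v x) + log⁺ (v y) :=
        mul_le_of_le_one_left (add_nonneg n1 n2) (by rw [wA_add_wB]; norm_num)
  have hI := Finset.sum_le_sum fun w (_ : w ∈ (Finset.univ : Finset (InfinitePlace K))) =>
    mul_le_mul_of_nonneg_left (hinf w) (Nat.cast_nonneg (α := ℝ) w.mult)
  have hF := Finset.sum_le_sum fun v (_ : v ∈ T) => hnon v
  simp only [mul_add, mul_left_comm _ wA, mul_left_comm _ wB, Finset.sum_add_distrib,
    ← Finset.mul_sum, ← Finset.sum_mul] at hI hF
  rw [show (∑ w : InfinitePlace K, (w.mult : ℝ)) = Module.finrank ℚ K by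
    exact_mod_cast InfinitePlace.sum_mult_eq (K := K)] at hI
  rw [hh x (by simp), hh y (by simp)]
  have a1 := congrArg (wA * ·) (hlog x hx (by simp))
  have a2 := congrArg (wA * ·) (hlog y hx1 (by simp))
  have a3 := congrArg (wB * ·) (hlog δ hP (by simp))
  simp only [mul_add, mul_zero] at a1 a2 a3
  linarith

end FA.ZagierLine

end
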