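import Fermat.Agent.TotallyRealHeight.Bound
import Mathlib.Analysis.Complex.AbsMax
import Mathlib.Analysis.SpecialFunctions.Complex.LogDeriv
import Mathlib.Analysis.SpecialFunctions.Pow.Continuity

/-!
# Zagier's inequality

The quotient `|z (1 - z)| ^ a |z ^ 2 - z + 1| ^ b / (max 1 |z| · max 1 |1 - z|)` tends to zero at
infinity and has no local maximum off the two unit circles, on which the bound is Schinzel's real
inequality.
-/

set_option autoImplicit false

noncomputable section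

namespace FA.ZagierLine

open Filter Topology Polynomial Real goldenRatio
open TotallyRealHeight (wA wB wA_add_wB wA_nonneg wB_pos log_ineq)

theorem wA_pos : 0 < wA := by
  have h5 : (1 : ℝ) < √5 := by
    rw [Real.lt_sqrt zero_le_one]
    norm_num
  have : 1 / (2 * √5) < 1 / 2 := one_div_lt_one_div_of_lt two_pos (by linarith)
  unfold TotallyRealHeight.wA
  linarith

theorem wA_lt_one : wA < 1 := by
  have := wA_add_wB
  have := wB_pos
  linarith

/-- The quotient. -/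
def quot (z : ℂ) : ℝ :=
  (‖z‖ * ‖1 - z‖) ^ wA * ‖z ^ 2 - z + 1‖ ^ wB / (max 1 ‖z‖ * max 1 ‖1 - z‖)

/-- Its logarithm. -/
def logQuot (z : ℂ) : ℝ :=
  wA * (log ‖z‖ + log ‖1 - z‖) + wB * log ‖z ^ 2 - z + 1‖ - (log⁺ ‖z‖ + log⁺ ‖1 - z‖)

theorem continuous_quot : Continuous quot := by
  refine Continuous.div ?_ (by fun_prop) fun z => by positivity
  exact ((by fun_prop : Continuous fun z : ℂ => ‖z‖ * ‖1 - z‖).rpow_const
      fun z => Or.inr wA_nonneg).mul
    ((by fun_prop : Continuous fun z : ℂ => ‖z ^ 2 - z + 1‖).rpow_const fun z => Or.inr wB_pos.le)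

theorem quot_nonneg (z : ℂ) : 0 ≤ quot z := by unfold quot; positivity

theorem quot_one_sub (z : ℂ) : quot (1 - z) = quot z := by
  rw [quot, quot, sub_sub_cancel, show (1 - z) ^ 2 - (1 - z) + 1 = z ^ 2 - z + 1 by ring,
    mul_comm ‖1 - z‖, mul_comm (max 1 ‖1 - z‖)]

theorem logQuot_one_sub (z : ℂ) : logQuot (1 - z) = logQuot z := by
  rw [logQuot, logQuot, sub_sub_cancel, show (1 - z) ^ 2 - (1 - z) + 1 = z ^ 2 - z + 1 by ring]
  ring

/-- The quotient away from its zeros. -/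
theorem quot_eq_exp {z : ℂ} (h0 : z ≠ 0) (h1 : 1 - z ≠ 0) (h2 : z ^ 2 - z + 1 ≠ 0) :
    quot z = exp (logQuot z) := by
  have p0 := norm_pos_iff.2 h0
  have p1 := norm_pos_iff.2 h1
  have p2 := norm_pos_iff.2 h2
  rw [logQuot, exp_sub, exp_add, quot, Real.posLog_eq_log_max_one (norm_nonneg _),
    Real.posLog_eq_log_max_one (norm_nonneg _), ← Real.log_mul p0.ne' p1.ne',
    ← Real.log_mul (by positivity) (by positivity), Real.exp_log (by positivity),
    Real.rpow_def_of_pos (mul_pos p0 p1), Real.rpow_def_of_pos p2, mul_comm (log _) wA,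
    mul_comm (log _) wB]

theorem quot_eq_zero {z : ℂ} (h : z = 0 ∨ 1 - z = 0 ∨ z ^ 2 - z + 1 = 0) : quot z = 0 := by
  unfold quot
  rcases h with h | h | h <;> simp [h, Real.zero_rpow wA_pos.ne', Real.zero_rpow wB_pos.ne']

/-- The quotient is small at infinity. -/
theorem quot_le {z : ℂ} (hz : 2 ≤ ‖z‖) : quot z ≤ 4 / ‖z‖ := by
  set r := ‖z‖
  have hr : 0 < r := by linarith
  have hA : r * ‖1 - z‖ ≤ 3 * r ^ 2 := by
    have : ‖1 - z‖ ≤ 1 + r := (norm_sub_le _ _).trans (by rw [norm_one])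
    nlinarith
  have hB : ‖z ^ 2 - z + 1‖ ≤ 3 * r ^ 2 := by
    calc ‖z ^ 2 - z + 1‖ ≤ ‖z ^ 2 - z‖ + ‖(1 : ℂ)‖ := norm_add_le _ _
      _ ≤ ‖z ^ 2‖ + ‖z‖ + ‖(1 : ℂ)‖ := by linarith [norm_sub_le (z ^ 2) z]
      _ ≤ _ := by rw [norm_pow, norm_one]; nlinarith
  have hD : r * (r / 2) ≤ max 1 r * max 1 ‖1 - z‖ := by
    have : r - 1 ≤ ‖1 - z‖ := by
      have := norm_sub_norm_le z 1
      rw [norm_one, norm_sub_rev] at this
      exact this
    exact mul_le_mul (le_max_right _ _) ((le_trans (by linarith) this).trans (le_max_right _ _))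
      (by positivity) (by positivity)
  have hN : (r * ‖1 - z‖) ^ wA * ‖z ^ 2 - z + 1‖ ^ wB ≤ 2 * r := by
    refine (mul_le_mul (Real.rpow_le_rpow (by positivity) hA wA_nonneg)
      (Real.rpow_le_rpow (norm_nonneg _) hB wB_pos.le) (by positivity) (by positivity)).trans ?_
    rw [← Real.rpow_add (by positivity), wA_add_wB, ← Real.sqrt_eq_rpow]
    exact Real.sqrt_le_iff.2 ⟨by positivity, by nlinarith⟩
  calc quot z ≤ 2 * r / (r * (r / 2)) :=
        div_le_div₀ (by positivity) hN (by positivity) hD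
    _ = 4 / r := by
      field_simp
      norm_num

/-- **No local maximum off the circles.** -/
theorem not_isLocalMax {c : ℂ} (h0 : c ≠ 0) (h1 : 1 - c ≠ 0) (h2 : c ^ 2 - c + 1 ≠ 0)
    (hc0 : ‖c‖ ≠ 1) (hc1 : ‖1 - c‖ ≠ 1) : ¬IsLocalMax quot c := by
  intro hmax
  obtain ⟨δ, hδ, hδe⟩ : ∃ δ : ℝ, (δ = 0 ∨ δ = 1) ∧
      ∀ᶠ z in 𝓝 c, log⁺ ‖z‖ = δ * log ‖z‖ := by
    rcases lt_or_gt_of_ne hc0 with h | h
    · refine ⟨0, Or.inl rfl, ((continuous_norm.tendsto c).eventually (gt_mem_nhds h)).mono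
        fun z hz => ?_⟩
      rw [zero_mul, Real.posLog_eq_zero_iff]
      rw [abs_norm]
      exact hz.le
    · refine ⟨1, Or.inr rfl, ((continuous_norm.tendsto c).eventually (lt_mem_nhds h)).mono
        fun z hz => ?_⟩
      rw [one_mul, Real.posLog_eq_log]
      rw [abs_norm]
      exact hz.le
  obtain ⟨ε, hεe⟩ : ∃ ε : ℝ, ∀ᶠ z in 𝓝 c, log⁺ ‖1 - z‖ = ε * log ‖1 - z‖ := by
    have hcont : Tendsto (fun z : ℂ => ‖1 - z‖) (𝓝 c) (𝓝 ‖1 - c‖) :=
      (by fun_prop : Continuous fun z : ℂ => ‖1 - z‖).tendsto c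
    rcases lt_or_gt_of_ne hc1 with h | h
    · refine ⟨0, (hcont.eventually (gt_mem_nhds h)).mono fun z hz => ?_⟩
      rw [zero_mul, Real.posLog_eq_zero_iff, abs_norm]
      exact hz.le
    · refine ⟨1, (hcont.eventually (lt_mem_nhds h)).mono fun z hz => ?_⟩
      rw [one_mul, Real.posLog_eq_log (by rw [abs_norm]; exact hz.le)]
  have hslit : ∀ {f : ℂ → ℂ}, Continuous f → f c ≠ 0 →
      ∀ᶠ z in 𝓝 c, f z / f c ∈ Complex.slitPlane := fun {f} hf hfc =>
    (hf.div_const (f c)).continuousAt.eventually_mem (Complex.isOpen_slitPlane.mem_nhds (by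
      rw [div_self hfc]
      exact Complex.one_mem_slitPlane))
  have s0 := hslit (f := fun z => z) continuous_id h0
  have s1 := hslit (f := fun z => 1 - z) (by fun_prop) h1
  have s2 := hslit (f := fun z => z ^ 2 - z + 1) (by fun_prop) h2
  have n0 : ∀ᶠ z in 𝓝 c, z ≠ 0 := isOpen_ne.mem_nhds h0
  have n1 : ∀ᶠ z in 𝓝 c, 1 - z ≠ 0 :=
    (by fun_prop : Continuous fun z : ℂ => 1 - z).continuousAt.eventually_ne h1
  have n2 : ∀ᶠ z in 𝓝 c, z ^ 2 - z + 1 ≠ 0 :=
    (by fun_prop : Continuous fun z : ℂ => z ^ 2 - z + 1).continuousAt.eventually_ne h2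
  set g : ℂ → ℂ := fun z => ((wA - δ : ℝ) : ℂ) * Complex.log (z / c) +
    ((wA - ε : ℝ) : ℂ) * Complex.log ((1 - z) / (1 - c)) +
    (wB : ℂ) * Complex.log ((z ^ 2 - z + 1) / (c ^ 2 - c + 1)) with hg
  set D : ℂ → ℂ := fun z => ((wA - δ : ℝ) : ℂ) / z + ((wA - ε : ℝ) : ℂ) * (-1) / (1 - z) +
    (wB : ℂ) * (2 * z - 1) / (z ^ 2 - z + 1) with hD
  have hderiv : ∀ᶠ z in 𝓝 c, HasDerivAt g (D z) z := by
    filter_upwards [s0, s1, s2, n0, n1, n2] with z a0 a1 a2 b0 b1 b2
    have e0 := ((hasDerivAt_id z).div_const c).clog a0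
    have e1 := (((hasDerivAt_id z).const_sub 1).div_const (1 - c)).clog a1
    have e2 := (((((hasDerivAt_id z).pow 2).sub (hasDerivAt_id z)).add_const 1).div_const
      (c ^ 2 - c + 1)).clog a2
    refine HasDerivAt.congr_deriv (((e0.const_mul _).add (e1.const_mul _)).add (e2.const_mul _)) ?_
    simp only [id_eq, hD, Pi.sub_apply, Pi.pow_apply]
    rw [div_div_div_cancel_right₀ h0, div_div_div_cancel_right₀ h1, div_div_div_cancel_right₀ h2]
    push_cast
    ring
  have hδc := hδe.self_of_nhds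
  have hεc := hεe.self_of_nhds
  have hre : ∀ᶠ z in 𝓝 c, ‖Complex.exp (g z)‖ = quot z / quot c := by
    filter_upwards [hδe, hεe, n0, n1, n2] with z p q b0 b1 b2
    rw [Complex.norm_exp, quot_eq_exp b0 b1 b2, quot_eq_exp h0 h1 h2, ← Real.exp_sub, logQuot,
      logQuot, p, q, hδc, hεc]
    simp only [hg, Complex.add_re, Complex.re_ofReal_mul, Complex.log_re, norm_div]
    rw [Real.log_div (norm_ne_zero_iff.2 b0) (norm_ne_zero_iff.2 h0),
      Real.log_div (norm_ne_zero_iff.2 b1) (norm_ne_zero_iff.2 h1),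
      Real.log_div (norm_ne_zero_iff.2 b2) (norm_ne_zero_iff.2 h2)]
    congr 1
    ring
  have hloc : IsLocalMax (norm ∘ fun z => Complex.exp (g z)) c := by
    have hc := hre.self_of_nhds
    filter_upwards [hre, hmax] with z e m
    simp only [Function.comp_apply]
    rw [e, hc]
    exact div_le_div_of_nonneg_right m (quot_nonneg c)
  have hconst := Complex.eventually_eq_of_isLocalMax_norm
    (hderiv.mono fun z hz => hz.cexp.differentiableAt) hloc
  have hzero : ∀ᶠ z in 𝓝 c, D z = 0 := by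
    filter_upwards [hderiv, hconst.eventually_nhds] with z hz hcz
    have h := hz.cexp.unique ((hasDerivAt_const z (Complex.exp (g c))).congr_of_eventuallyEq hcz)
    exact (mul_eq_zero.1 h).resolve_left (Complex.exp_ne_zero _)
  set R : ℂ[X] := C ((wA - δ : ℝ) : ℂ) * (1 - X) * (X ^ 2 - X + 1) -
    C ((wA - ε : ℝ) : ℂ) * X * (X ^ 2 - X + 1) + C (wB : ℂ) * (2 * X - 1) * X * (1 - X) with hR
  have hR0 : R = 0 := by
    refine eq_zero_of_infinite_isRoot R ((infinite_of_mem_nhds c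
      (hzero.and (n0.and (n1.and n2)))).mono ?_)
    rintro z ⟨hz, b0, b1, b2⟩
    have e : R.eval z = z * (1 - z) * (z ^ 2 - z + 1) * D z := by
      simp only [hR, hD, eval_add, eval_sub, eval_mul, eval_pow, eval_X, eval_C, eval_one,
        eval_ofNat]
      rw [mul_add (z * (1 - z) * (z ^ 2 - z + 1)), mul_add (z * (1 - z) * (z ^ 2 - z + 1)), mul_div_assoc', mul_div_assoc', mul_div_assoc',
        show z * (1 - z) * (z ^ 2 - z + 1) * ((wA - δ : ℝ) : ℂ) =
          (1 - z) * (z ^ 2 - z + 1) * ((wA - δ : ℝ) : ℂ) * z by ring,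
        show z * (1 - z) * (z ^ 2 - z + 1) * (((wA - ε : ℝ) : ℂ) * (-1)) =
          -(z * (z ^ 2 - z + 1) * ((wA - ε : ℝ) : ℂ)) * (1 - z) by ring,
        show z * (1 - z) * (z ^ 2 - z + 1) * ((wB : ℂ) * (2 * z - 1)) =
          z * (1 - z) * ((wB : ℂ) * (2 * z - 1)) * (z ^ 2 - z + 1) by ring,
        mul_div_cancel_right₀ _ b0, mul_div_cancel_right₀ _ b1, mul_div_cancel_right₀ _ b2]
      ring
    show R.eval z = 0
    rw [e, hz, mul_zero]
  have h := congrArg (Polynomial.eval 0) hR0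
  simp [hR, sub_eq_zero] at h
  rcases hδ with rfl | rfl
  · linarith [wA_pos]
  · linarith [wA_lt_one]

/-- The bound on the circle. -/
theorem logQuot_le_of_norm_eq_one {z : ℂ} (h : ‖z‖ = 1) (h1 : 1 - z ≠ 0)
    (h2 : z ^ 2 - z + 1 ≠ 0) : logQuot z ≤ -(log φ / 2) := by
  set u := ‖1 - z‖
  have hu : 0 < u := norm_pos_iff.2 h1
  have hre : u ^ 2 = 2 - 2 * z.re := by
    have hz : z.re * z.re + z.im * z.im = 1 := by
      rw [← Complex.normSq_apply, Complex.normSq_eq_norm_sq, h, one_pow]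
    rw [← Complex.normSq_eq_norm_sq, Complex.normSq_apply]
    simp only [Complex.sub_re, Complex.sub_im, Complex.one_re, Complex.one_im]
    linear_combination hz
  have hP : z ^ 2 - z + 1 = z * ((1 - u ^ 2 : ℝ) : ℂ) := by
    have hzc : z * starRingEnd ℂ z = 1 := by
      rw [Complex.mul_conj, Complex.normSq_eq_norm_sq, h]
      norm_num
    rw [hre, show (1 : ℝ) - (2 - 2 * z.re) = 2 * z.re - 1 by ring, Complex.ofReal_sub,
      Complex.ofReal_one, ← Complex.add_conj]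
    linear_combination -hzc
  have hu1 : u ≠ 1 := fun e => h2 (by rw [hP, e]; simp)
  have := log_ineq hu hu1
  rw [logQuot, hP, norm_mul, h, one_mul, Complex.norm_real, Real.norm_eq_abs, Real.log_one,
    zero_add, show log⁺ (1 : ℝ) = 0 from Real.posLog_one, zero_add]
  linarith

/-- **Zagier's inequality.** -/
theorem logQuot_le {z : ℂ} (h0 : z ≠ 0) (h1 : 1 - z ≠ 0) (h2 : z ^ 2 - z + 1 ≠ 0) :
    logQuot z ≤ -(log φ / 2) := by
  have h2' : quot 2 = exp (logQuot 2) := quot_eq_exp two_ne_zero (by norm_num) (by norm_num)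
  have hpos : 0 < quot 2 := h2' ▸ exp_pos _
  obtain ⟨c, hc⟩ := continuous_quot.exists_forall_ge' (2 : ℂ) (by
    filter_upwards [(tendsto_norm_cocompact_atTop (E := ℂ)).eventually
      (eventually_ge_atTop (max 2 (4 / quot 2)))] with w hw
    refine (quot_le ((le_max_left _ _).trans hw)).trans ?_
    have hw' : 4 / quot 2 ≤ ‖w‖ := (le_max_right _ _).trans hw
    rw [div_le_iff₀ hpos] at hw'
    rw [div_le_iff₀ (two_pos.trans_le ((le_max_left _ _).trans hw))]
    linarith)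
  have hcpos : 0 < quot c := hpos.trans_le (hc 2)
  have c0 : c ≠ 0 := fun e => hcpos.ne' (quot_eq_zero (Or.inl e))
  have c1 : 1 - c ≠ 0 := fun e => hcpos.ne' (quot_eq_zero (Or.inr (Or.inl e)))
  have c2 : c ^ 2 - c + 1 ≠ 0 := fun e => hcpos.ne' (quot_eq_zero (Or.inr (Or.inr e)))
  have hle : logQuot c ≤ -(log φ / 2) := by
    by_cases e0 : ‖c‖ = 1
    · exact logQuot_le_of_norm_eq_one e0 c1 c2
    by_cases e1 : ‖1 - c‖ = 1
    · rw [← logQuot_one_sub]
      exact logQuot_le_of_norm_eq_one e1 (by rwa [sub_sub_cancel])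
        (by rwa [show (1 - c) ^ 2 - (1 - c) + 1 = c ^ 2 - c + 1 by ring])
    · exact absurd (Eventually.of_forall hc) (not_isLocalMax c0 c1 c2 e0 e1)
  have := hc z
  rw [quot_eq_exp h0 h1 h2, quot_eq_exp c0 c1 c2, Real.exp_le_exp] at this
  linarith

/-- Zagier's inequality in multiplicative form. -/
theorem quot_mul_le (z : ℂ) :
    (‖z‖ * ‖1 - z‖) ^ wA * ‖z ^ 2 - z + 1‖ ^ wB * √φ ≤ max 1 ‖z‖ * max 1 ‖1 - z‖ := by
  by_cases h : z = 0 ∨ 1 - z = 0 ∨ z ^ 2 - z + 1 = 0
  · have := quot_eq_zero h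
    rw [quot, div_eq_zero_iff, or_iff_left (by positivity)] at this
    rw [this, zero_mul]
    positivity
  · push Not at h
    have h' := logQuot_le h.1 h.2.1 h.2.2
    have hs : √φ = exp (log φ / 2) := by
      rw [← Real.log_sqrt goldenRatio_pos.le, Real.exp_log (Real.sqrt_pos.2 goldenRatio_pos)]
    have hq : quot z * √φ ≤ 1 := by
      rw [quot_eq_exp h.1 h.2.1 h.2.2, hs, ← Real.exp_add, Real.exp_le_one_iff]
      linarith
    rw [quot, div_mul_eq_mul_div, div_le_one (by positivity)] at hq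
    exact hq

end FA.ZagierLine

end
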