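import Fermat.Agent.AbelianHeight.HeightMap
import Fermat.Agent.BiluEquidistribution.Corollaries
import Fermat.Agent.BiluTorus.Points
import Fermat.Agent.ZagierLine.Bound
import Mathlib.RingTheory.Polynomial.Cyclotomic.Roots
import Mathlib.RingTheory.Polynomial.Cyclotomic.Expand

/-!
# Zagier's theorem for algebraic numbers

The bound for the absolute height, its Mahler measure form, and the tenth roots of unity.
-/

set_option autoImplicit false
set_option linter.style.haveILetI false

noncomputable section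

namespace FA.ZagierLine

open NumberField Polynomial IntermediateField Real goldenRatio BiluTorus

/-- **Zagier's theorem.** -/
theorem algHeight_add_ge {x : ℂ} (halg : IsAlgebraic ℚ x) (h0 : x ≠ 0) (h1 : x ≠ 1)
    (h2 : x ^ 2 - x + 1 ≠ 0) : log φ / 2 ≤ algHeight x + algHeight (1 - x) := by
  haveI : FiniteDimensional ℚ ℚ⟮x⟯ := adjoin.finiteDimensional halg.isIntegral
  haveI : NumberField ℚ⟮x⟯ := {}
  set g := AdjoinSimple.gen ℚ x
  have hgx : IntermediateField.val ℚ⟮x⟯ g = x := rfl
  have h := height_add_ge (x := g) (fun e => h0 (by rw [← hgx, e, map_zero]))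
    (fun e => h1 (by rw [← hgx, ← sub_eq_zero.1 e, map_one]))
    (fun e => h2 (by
      have := congrArg (IntermediateField.val ℚ⟮x⟯) e
      simpa only [map_add, map_sub, map_pow, map_one, map_zero, hgx] using this))
  rw [AbelianHeight.logHeight_eq_algHeight (IntermediateField.val ℚ⟮x⟯) g,
    AbelianHeight.logHeight_eq_algHeight (IntermediateField.val ℚ⟮x⟯) (1 - g)] at h
  change _ ≤ _ * algHeight x + _ * algHeight (1 - x) at h
  rw [← mul_add] at h
  exact le_of_mul_le_mul_left h (Nat.cast_pos.2 Module.finrank_pos)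

/-- The height of zero. -/
theorem algHeight_zero : algHeight (0 : ℂ) = 0 := by
  rw [algHeight_eq Polynomial.irreducible_X (aeval_X 0)]
  rw [Bilu.logM, map_X, show (X : ℂ[X]) = X - C 0 by simp, mahlerMeasure_X_sub_C]
  simp

/-- A root of `X ^ 2 - X + 1` is a sixth root of unity. -/
theorem pow_six_eq_one {x : ℂ} (h : x ^ 2 - x + 1 = 0) : x ^ 6 = 1 := by
  linear_combination (x ^ 4 + x ^ 3 - x - 1) * h

/-- The sum of the heights vanishes exactly at the four exceptions. -/
theorem algHeight_add_eq_zero_iff {x : ℂ} (halg : IsAlgebraic ℚ x) :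
    algHeight x + algHeight (1 - x) = 0 ↔ x = 0 ∨ x = 1 ∨ x ^ 2 - x + 1 = 0 := by
  constructor
  · intro h
    by_contra hne
    push Not at hne
    have := algHeight_add_ge halg hne.1 hne.2.1 hne.2.2
    have := Real.log_pos one_lt_goldenRatio
    linarith
  · rintro (rfl | rfl | h)
    · rw [sub_zero, algHeight_zero, algHeight_one, add_zero]
    · rw [sub_self, algHeight_zero, algHeight_one, add_zero]
    · rw [algHeight_eq_zero_of_pow_eq_one (by norm_num : 0 < 6) (pow_six_eq_one h),
        algHeight_eq_zero_of_pow_eq_one (by norm_num : 0 < 6)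
          (pow_six_eq_one (x := 1 - x) (by linear_combination h)), add_zero]

/-- **The Mahler measure form.** -/
theorem mahlerMeasure_mul_ge {f : ℤ[X]} (hf : Irreducible f) (hd : 0 < f.natDegree)
    (hX : ¬Associated f X) (hX1 : ¬Associated f (X - 1))
    (h6 : ¬Associated f (X ^ 2 - X + 1)) :
    φ ^ ((f.natDegree : ℝ) / 2) ≤ (f.map (Int.castRingHom ℂ)).mahlerMeasure *
      ((f.comp (1 - X)).map (Int.castRingHom ℂ)).mahlerMeasure := by
  obtain ⟨x, hx⟩ := IsAlgClosed.exists_aeval_eq_zero ℂ f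
    (Polynomial.degree_ne_of_natDegree_ne hd.ne')
  have hc := Bilu.irreducible_comp_one_sub hf
  have hcx : aeval (1 - x) (f.comp (1 - X)) = 0 := by
    rw [aeval_comp, map_sub, map_one, aeval_X, sub_sub_cancel, hx]
  have h := algHeight_add_ge ((IsFractionRing.isAlgebraic_iff ℤ ℚ ℂ).1 ⟨f, hf.ne_zero, hx⟩)
    (fun e => hX (associated_of_root hf hx Polynomial.irreducible_X (by rw [e, aeval_X])))
    (fun e => hX1 (associated_of_root hf hx (by simpa using (prime_X_sub_C (1 : ℤ)).irreducible)
      (by rw [e]; simp)))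
    (fun e => h6 (associated_of_root hf hx
      (by rw [← cyclotomic_six]; exact cyclotomic.irreducible (by norm_num))
      (by simpa using e)))
  rw [algHeight_eq hf hx, algHeight_eq hc hcx, Bilu.natDegree_comp_one_sub, ← add_div,
    le_div_iff₀ (Nat.cast_pos.2 hd)] at h
  have hM : ∀ q : ℤ[X], q ≠ 0 → 0 < (q.map (Int.castRingHom ℂ)).mahlerMeasure := fun q hq =>
    mahlerMeasure_pos_of_ne_zero ((Polynomial.map_ne_zero_iff Int.cast_injective).2 hq)
  rw [← Real.log_le_log_iff (Real.rpow_pos_of_pos goldenRatio_pos _)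
    (mul_pos (hM f hf.ne_zero) (hM _ hc.ne_zero)), Real.log_rpow goldenRatio_pos,
    Real.log_mul (hM f hf.ne_zero).ne' (hM _ hc.ne_zero).ne']
  simp only [Bilu.logM] at h
  linarith

/-- The measure of `X ^ 2 - s X + s`. -/
theorem mahlerMeasure_quadratic {s : ℝ} (h0 : 0 ≤ s) (h4 : s ≤ 4) :
    (X ^ 2 - C (s : ℂ) * X + C (s : ℂ)).mahlerMeasure = max 1 s := by
  set r : ℂ := ⟨s / 2, √(4 * s - s ^ 2) / 2⟩
  have him : √(4 * s - s ^ 2) ^ 2 = 4 * s - s ^ 2 := Real.sq_sqrt (by nlinarith)
  have hsum : r + starRingEnd ℂ r = (s : ℂ) := by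
    rw [Complex.add_conj]
    simp only [r]
    push_cast
    ring
  have hprod : r * starRingEnd ℂ r = (s : ℂ) := by
    rw [Complex.mul_conj, Complex.normSq_apply]
    simp only [r]
    congr 1
    linear_combination him / 4
  have hsq : ‖r‖ ^ 2 = s := by
    rw [← Complex.normSq_eq_norm_sq]
    exact Complex.ofReal_injective ((Complex.mul_conj r).symm.trans hprod)
  have hfac : X ^ 2 - C (s : ℂ) * X + C (s : ℂ) = (X - C r) * (X - C (starRingEnd ℂ r)) := by
    calc X ^ 2 - C (s : ℂ) * X + C (s : ℂ)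
        = X ^ 2 - C (r + starRingEnd ℂ r) * X + C (r * starRingEnd ℂ r) := by rw [hsum, hprod]
      _ = _ := by rw [C_add, C_mul]; ring
  rw [hfac, mahlerMeasure_mul, mahlerMeasure_X_sub_C, mahlerMeasure_X_sub_C, Complex.norm_conj]
  rcases le_total ‖r‖ 1 with h | h
  · rw [max_eq_left h, max_eq_left (by rw [← hsq]; nlinarith [norm_nonneg r]), one_mul]
  · rw [max_eq_right h, max_eq_right (by rw [← hsq]; nlinarith), ← sq, hsq]

/-- **The bound is attained at the tenth roots of unity.** -/
theorem algHeight_tenth {x : ℂ} (hx : IsPrimitiveRoot x 10) :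
    algHeight x + algHeight (1 - x) = log φ / 2 := by
  have h5 : x ^ 5 = -1 := by
    have h : (x ^ 5) ^ 2 = 1 := by rw [← pow_mul]; exact hx.pow_eq_one
    rcases sq_eq_one_iff.1 h with h | h
    · exact absurd h (hx.pow_ne_one_of_pos_of_lt (by norm_num) (by norm_num))
    · exact h
  have hne : x + 1 ≠ 0 := fun e => hx.pow_ne_one_of_pos_of_lt (l := 2) (by norm_num) (by norm_num)
    (by rw [eq_neg_of_add_eq_zero_left e]; norm_num)
  have hroot : x ^ 4 - x ^ 3 + x ^ 2 - x + 1 = 0 := by
    refine (mul_eq_zero.1 ?_).resolve_left hne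
    linear_combination h5
  set q : ℤ[X] := X ^ 4 - X ^ 3 + X ^ 2 - X + 1 with hq
  have hqx : aeval x q = 0 := by simpa [hq] using hroot
  have hint : IsIntegral ℤ x := hx.isIntegral (by norm_num)
  have hcyc : cyclotomic 10 ℤ = q := by
    refine Eq.symm (eq_of_monic_of_dvd_of_natDegree_le (cyclotomic.monic _ _) (by rw [hq]; monicity!) ?_ ?_)
    · rw [cyclotomic_eq_minpoly hx (by norm_num)]
      exact minpoly.isIntegrallyClosed_dvd hint hqx
    · rw [natDegree_cyclotomic, show q.natDegree = 4 by rw [hq]; compute_degree!]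
      decide
  have hirr : Irreducible q := hcyc ▸ cyclotomic.irreducible (by norm_num)
  have hx' : aeval (1 - x) (q.comp (1 - X)) = 0 := by
    rw [aeval_comp, map_sub, map_one, aeval_X, sub_sub_cancel, hqx]
  rw [algHeight_eq_zero_of_pow_eq_one (by norm_num) hx.pow_eq_one, zero_add,
    algHeight_eq (Bilu.irreducible_comp_one_sub hirr) hx', Bilu.natDegree_comp_one_sub,
    show q.natDegree = 4 by rw [hq]; compute_degree!, Bilu.logM]
  have hfac : (q.comp (1 - X)).map (Int.castRingHom ℂ) =
      (X ^ 2 - C ((φ + 1 : ℝ) : ℂ) * X + C ((φ + 1 : ℝ) : ℂ)) *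
        (X ^ 2 - C ((2 - φ : ℝ) : ℂ) * X + C ((2 - φ : ℝ) : ℂ)) := by
    have e1 : C ((φ + 1 : ℝ) : ℂ) + C ((2 - φ : ℝ) : ℂ) = 3 := by
      rw [← C_add, ← Complex.ofReal_add, show φ + 1 + (2 - φ) = 3 by ring]
      simp [map_ofNat]
    have e2 : C ((φ + 1 : ℝ) : ℂ) * C ((2 - φ : ℝ) : ℂ) = 1 := by
      rw [← C_mul, ← Complex.ofReal_mul,
        show (φ + 1) * (2 - φ) = 1 by linear_combination (-1 : ℝ) * goldenRatio_sq]
      simp
    simp only [hq, add_comp, sub_comp, pow_comp, X_comp, one_comp, Polynomial.map_add,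
      Polynomial.map_sub, Polynomial.map_pow, map_X, Polynomial.map_one]
    linear_combination (X ^ 3 - X ^ 2) * e1 + (-X ^ 2 + 2 * X - 1) * e2
  have hφ2 : 0 ≤ 2 - φ := by linarith [goldenRatio_lt_two]
  rw [hfac, mahlerMeasure_mul, mahlerMeasure_quadratic (by linarith [goldenRatio_pos])
    (by linarith [goldenRatio_lt_two]), mahlerMeasure_quadratic hφ2
    (by linarith [goldenRatio_pos]), max_eq_right (by linarith [goldenRatio_pos]),
    max_eq_left (by linarith [one_lt_goldenRatio]), mul_one, ← goldenRatio_sq, Real.log_pow]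
  push_cast
  ring

end FA.ZagierLine

end
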